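/-
GATE-E (S59) / E8.6 IRR2, leaf (SERRE12) (helper70), file 1 = the abstract VALUATION core.

`A` a valuation subring of `ℚ̄` over `p`.
* `inv_mul_mem_of_fixed` : an inertia-fixed `y ∉ A` has `v(y) ≥ v(p)⁻¹` (the inertia field is
  unramified: `GL/Local/InertiaField.exists_zpow_unit_of_fixed`);
* `false_of_three_stable` : a finite family `x i ∉ A` (`i ∈ T`) with `v(p)² ∏_T v(x i) ≤ 1` cannot
  contain three pairwise disjoint nonempty inertia-stable subfamilies.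
-/
import Mathlib
import Fermat.Agent.GL.Local.InertiaField

set_option autoImplicit false

open Fermat.Agent.Common_helper32

namespace Fermat.Agent.GE8.Irr2.Serre.Core

variable {p : ℕ} (hp : p.Prime) (A : ValuationSubring Qb) (hA : (p : Qb) ∈ A.nonunits)

theorem one_lt_valuation_of_notMem {y : Qb} (hy : y ∉ A) : 1 < A.valuation y := by
  rw [← not_le, A.valuation_le_one_iff]
  exact hy

theorem ne_zero_of_notMem {y : Qb} (hy : y ∉ A) : y ≠ 0 := by
  rintro rfl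
  exact hy A.zero_mem

/-- the value of a product of elements of value `> 1`. -/
theorem one_le_valuation_prod {ι : Type*} (x : ι → Qb) (S : Finset ι)
    (hS : ∀ i ∈ S, x i ∉ A) : 1 ≤ A.valuation (∏ i ∈ S, x i) := by
  classical
  induction S using Finset.induction_on with
  | empty => simp
  | insert a S ha ih =>
    rw [Finset.prod_insert ha, map_mul]
    have h1 : 1 < A.valuation (x a) :=
      one_lt_valuation_of_notMem A (hS a (Finset.mem_insert_self a S))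
    have h2 := ih (fun i hi => hS i (Finset.mem_insert_of_mem hi))
    exact one_le_mul_of_one_le_of_one_le h1.le h2

theorem one_lt_valuation_prod {ι : Type*} (x : ι → Qb) (S : Finset ι) (hne : S.Nonempty)
    (hS : ∀ i ∈ S, x i ∉ A) : 1 < A.valuation (∏ i ∈ S, x i) := by
  classical
  obtain ⟨a, ha⟩ := hne
  rw [← Finset.mul_prod_erase S x ha, map_mul]
  have h1 : 1 < A.valuation (x a) := one_lt_valuation_of_notMem A (hS a ha)
  have h2 := one_le_valuation_prod A x (S.erase a)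
    (fun i hi => hS i (Finset.mem_of_mem_erase hi))
  exact one_lt_mul_of_lt_of_le' h1 h2

include hp hA in
/-- **unramifiedness of the inertia field**: an inertia-fixed element of value `> 1` has value
`≥ v(p)⁻¹`. -/
theorem one_le_valuation_mul_of_fixed {y : Qb} (hy : y ∉ A)
    (hfix : ∀ σ ∈ A.inertiaSubgroupIn ℚ, σ y = y) : 1 ≤ A.valuation ((p : Qb) * y) := by
  have hy0 : y ≠ 0 := ne_zero_of_notMem A hy
  have hp0 : (p : Qb) ≠ 0 := by exact_mod_cast hp.ne_zero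
  obtain ⟨n, hn1, hn2⟩ :=
    Fermat.Agent.GL.Local.InertiaField.exists_zpow_unit_of_fixed A hp hA y hy0 hfix
  have hu1 : A.valuation (y / (p : Qb) ^ n) ≤ 1 := (A.valuation_le_one_iff _).2 hn1
  have hu2 : A.valuation (y / (p : Qb) ^ n)⁻¹ ≤ 1 := (A.valuation_le_one_iff _).2 hn2
  have hu0 : y / (p : Qb) ^ n ≠ 0 := div_ne_zero hy0 (zpow_ne_zero _ hp0)
  have hu : A.valuation (y / (p : Qb) ^ n) = 1 := by
    apply le_antisymm hu1
    rw [map_inv₀] at hu2
    have h0 : A.valuation (y / (p : Qb) ^ n) ≠ 0 := (map_ne_zero _).2 hu0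
    exact (inv_le_one₀ (zero_lt_iff.2 h0)).1 hu2
  have hyv : A.valuation y = A.valuation (p : Qb) ^ n := by
    have h1 : y = y / (p : Qb) ^ n * (p : Qb) ^ n := by
      rw [div_mul_cancel₀ _ (zpow_ne_zero _ hp0)]
    rw [h1, map_mul, hu, one_mul, map_zpow₀]
  have hvp : A.valuation (p : Qb) < 1 := (ValuationSubring.mem_nonunits_iff A).1 hA
  have hvp0 : A.valuation (p : Qb) ≠ 0 := (map_ne_zero _).2 hp0
  have hvp0' : 0 < A.valuation (p : Qb) := zero_lt_iff.2 hvp0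
  have hlt : 1 < A.valuation y := one_lt_valuation_of_notMem A hy
  -- `n ≤ -1`
  have hn : n ≤ -1 := by
    by_contra hcon
    have hn0 : 0 ≤ n := by omega
    obtain ⟨m, rfl⟩ := Int.eq_ofNat_of_zero_le hn0
    rw [hyv, zpow_natCast] at hlt
    exact absurd (pow_le_one' hvp.le m) (not_le.2 hlt)
  obtain ⟨m, hm⟩ : ∃ m : ℕ, n = -1 - (m : ℤ) := ⟨(-1 - n).toNat, by omega⟩
  rw [map_mul, hyv, hm, show (-1 - (m : ℤ)) = -((m : ℤ) + 1) by ring, zpow_neg,
    show ((m : ℤ) + 1) = ((m + 1 : ℕ) : ℤ) by push_cast; ring, zpow_natCast, pow_succ, mul_inv,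
    ← mul_assoc, mul_comm (A.valuation (p : Qb)), mul_assoc, mul_inv_cancel₀ hvp0, mul_one]
  exact (one_le_inv₀ (pow_pos hvp0' m)).2 (pow_le_one' hvp.le m)

include hp hA in
/-- **the contradiction**: no three pairwise disjoint nonempty inertia-stable subfamilies. -/
theorem false_of_three_stable {ι : Type*} [DecidableEq ι] (x : ι → Qb) (act : GQ → ι → ι)
    (hact : ∀ s ∈ A.inertiaSubgroupIn ℚ, ∀ i, x (act s i) = s (x i))
    (hinj : ∀ s ∈ A.inertiaSubgroupIn ℚ, Function.Injective (act s))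
    (T : Finset ι) (hT : ∀ i ∈ T, x i ∉ A)
    (hprod : A.valuation ((p : Qb) ^ 2 * ∏ i ∈ T, x i) ≤ 1)
    (S₁ S₂ S₃ : Finset ι) (h₁ : S₁ ⊆ T) (h₂ : S₂ ⊆ T) (h₃ : S₃ ⊆ T)
    (n₁ : S₁.Nonempty) (n₂ : S₂.Nonempty) (n₃ : S₃.Nonempty)
    (d₁₂ : Disjoint S₁ S₂) (d₁₃ : Disjoint S₁ S₃) (d₂₃ : Disjoint S₂ S₃)
    (st₁ : ∀ s ∈ A.inertiaSubgroupIn ℚ, ∀ i ∈ S₁, act s i ∈ S₁)
    (st₂ : ∀ s ∈ A.inertiaSubgroupIn ℚ, ∀ i ∈ S₂, act s i ∈ S₂)
    (st₃ : ∀ s ∈ A.inertiaSubgroupIn ℚ, ∀ i ∈ S₃, act s i ∈ S₃) : False := by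
  -- the product over a stable set is inertia-fixed
  have hfix : ∀ S : Finset ι, (∀ s ∈ A.inertiaSubgroupIn ℚ, ∀ i ∈ S, act s i ∈ S) →
      ∀ s ∈ A.inertiaSubgroupIn ℚ, s (∏ i ∈ S, x i) = ∏ i ∈ S, x i := by
    intro S hst s hs
    have himg : S.image (act s) = S := by
      apply Finset.eq_of_subset_of_card_le
      · intro j hj
        obtain ⟨i, hi, rfl⟩ := Finset.mem_image.1 hj
        exact hst s hs i hi
      · rw [Finset.card_image_of_injective _ (hinj s hs)]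
    rw [map_prod]
    calc ∏ i ∈ S, s (x i) = ∏ i ∈ S, x (act s i) :=
          Finset.prod_congr rfl (fun i _ => (hact s hs i).symm)
      _ = ∏ j ∈ S.image (act s), x j :=
          (Finset.prod_image (fun a _ b _ h => hinj s hs h)).symm
      _ = ∏ i ∈ S, x i := by rw [himg]
  have key : ∀ S : Finset ι, S ⊆ T → S.Nonempty →
      (∀ s ∈ A.inertiaSubgroupIn ℚ, ∀ i ∈ S, act s i ∈ S) →
      1 ≤ A.valuation ((p : Qb) * ∏ i ∈ S, x i) := by
    intro S hST hne hst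
    apply one_le_valuation_mul_of_fixed hp A hA
    · rw [← A.valuation_le_one_iff, not_le]
      exact one_lt_valuation_prod A x S hne (fun i hi => hT i (hST hi))
    · exact hfix S hst
  have k₁ := key S₁ h₁ n₁ st₁
  have k₂ := key S₂ h₂ n₂ st₂
  have k₃ := key S₃ h₃ n₃ st₃
  -- split the product
  set U : Finset ι := S₁ ∪ S₂ ∪ S₃ with hU
  have hUT : U ⊆ T := Finset.union_subset (Finset.union_subset h₁ h₂) h₃
  have hd : Disjoint (S₁ ∪ S₂) S₃ := Finset.disjoint_union_left.2 ⟨d₁₃, d₂₃⟩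
  have hsplit : ∏ i ∈ T, x i =
      (∏ i ∈ S₁, x i) * (∏ i ∈ S₂, x i) * (∏ i ∈ S₃, x i) * ∏ i ∈ T \ U, x i := by
    rw [← Finset.prod_union d₁₂, ← Finset.prod_union hd, ← hU, mul_comm,
      Finset.prod_sdiff hUT]
  have hrest : 1 ≤ A.valuation (∏ i ∈ T \ U, x i) :=
    one_le_valuation_prod A x _ (fun i hi => hT i (Finset.mem_sdiff.1 hi).1)
  have hvp : A.valuation (p : Qb) < 1 := (ValuationSubring.mem_nonunits_iff A).1 hA
  have h3 : 1 ≤ A.valuation ((p : Qb) ^ 3 * ∏ i ∈ T, x i) := by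
    have e : (p : Qb) ^ 3 * ∏ i ∈ T, x i =
        ((p : Qb) * ∏ i ∈ S₁, x i) * ((p : Qb) * ∏ i ∈ S₂, x i) * ((p : Qb) * ∏ i ∈ S₃, x i) *
          ∏ i ∈ T \ U, x i := by
      rw [hsplit]; ring
    rw [e, map_mul, map_mul, map_mul]
    exact one_le_mul_of_one_le_of_one_le
      (one_le_mul_of_one_le_of_one_le (one_le_mul_of_one_le_of_one_le k₁ k₂) k₃) hrest
  have h4 : A.valuation ((p : Qb) ^ 3 * ∏ i ∈ T, x i) < 1 := by
    have e : (p : Qb) ^ 3 * ∏ i ∈ T, x i = (p : Qb) * ((p : Qb) ^ 2 * ∏ i ∈ T, x i) := by ring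
    rw [e, map_mul]
    exact mul_lt_one_of_lt_of_le hvp hprod
  exact absurd h3 (not_le.2 h4)

end Fermat.Agent.GE8.Irr2.Serre.Core
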