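/-
GATE-E (S59) / E8.6 IRR2, leaf (SERRE12) (helper70), file 2 = the ORBIT count (Mathlib only).

`V` a plane over `𝔽_p` (`#V = p²`), `p ≥ 5`, a group `I` acting through commuting endomorphisms
`r s` whose squares are all scalar.  Then every orbit on `V ∖ 0` meets at most two lines, hence has
at most `2 (p - 1)` points, and `V ∖ 0` contains THREE pairwise disjoint nonempty `I`-stable
subsets (three distinct orbits).
-/
import Mathlib

set_option autoImplicit false
set_option linter.unusedSectionVars false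

namespace Fermat.Agent.GE8.Irr2.Serre.Orbits

open Module

variable {p : ℕ} [hp : Fact p.Prime] {V : Type*} [AddCommGroup V] [Module (ZMod p) V]

/-- the nonzero multiples of a vector. -/
noncomputable def lineSet [DecidableEq V] (P : V) : Finset V :=
  (Finset.univ.erase (0 : ZMod p)).image (fun α => α • P)

theorem card_lineSet_le [DecidableEq V] (P : V) : (lineSet (p := p) P).card ≤ p - 1 := by
  unfold lineSet
  refine Finset.card_image_le.trans ?_
  rw [Finset.card_erase_of_mem (Finset.mem_univ _), Finset.card_univ, ZMod.card]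

theorem mem_lineSet [DecidableEq V] {P Q : V} :
    Q ∈ lineSet (p := p) P ↔ ∃ α : ZMod p, α ≠ 0 ∧ Q = α • P := by
  unfold lineSet
  constructor
  · intro h
    obtain ⟨α, hα, rfl⟩ := Finset.mem_image.1 h
    exact ⟨α, Finset.ne_of_mem_erase hα, rfl⟩
  · rintro ⟨α, hα, rfl⟩
    exact Finset.mem_image.2 ⟨α, Finset.mem_erase.2 ⟨hα, Finset.mem_univ _⟩, rfl⟩

/-- two independent vectors of a plane of cardinality `p²` span it. -/
theorem exists_coords (hcard : Nat.card V = p ^ 2) {P Q : V}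
    (hind : ∀ α β : ZMod p, α • P + β • Q = 0 → α = 0 ∧ β = 0) (R : V) :
    ∃ α β : ZMod p, R = α • P + β • Q := by
  have hfin : Finite V := Nat.finite_of_card_ne_zero (by
    rw [hcard]; exact pow_ne_zero 2 hp.out.ne_zero)
  let f : ZMod p × ZMod p → V := fun c => c.1 • P + c.2 • Q
  have hinj : Function.Injective f := by
    rintro ⟨a, b⟩ ⟨a', b'⟩ h
    have h1 : (a - a') • P + (b - b') • Q = 0 := by
      have h2 : a • P + b • Q = a' • P + b' • Q := h
      rw [sub_smul, sub_smul]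
      rw [← sub_eq_zero] at h2
      rw [← h2]; abel
    obtain ⟨e1, e2⟩ := hind _ _ h1
    rw [sub_eq_zero] at e1 e2
    rw [e1, e2]
  have hc : Nat.card (ZMod p × ZMod p) = Nat.card V := by
    rw [Nat.card_prod, Nat.card_zmod, hcard, sq]
  have hbij : Function.Bijective f :=
    (Nat.bijective_iff_injective_and_card f).2 ⟨hinj, hc⟩
  obtain ⟨⟨α, β⟩, h⟩ := hbij.2 R
  exact ⟨α, β, h.symm⟩

/-- **the two-lines lemma**: `h`, `h'` commuting with scalar squares, `P`, `h P` independent;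
then `h' P` is on the line of `P` or on the line of `h P`. -/
theorem line_or_line (hp2 : p ≠ 2) (hcard : Nat.card V = p ^ 2) (h h' : Module.End (ZMod p) V)
    (hcomm : h * h' = h' * h) {a a' : ZMod p} (ha : h ^ 2 = a • (1 : Module.End (ZMod p) V))
    (ha' : h' ^ 2 = a' • (1 : Module.End (ZMod p) V)) (P : V)
    (hind : ∀ α β : ZMod p, α • P + β • h P = 0 → α = 0 ∧ β = 0) :
    (∃ α : ZMod p, h' P = α • P) ∨ ∃ β : ZMod p, h' P = β • h P := by
  obtain ⟨α, β, hαβ⟩ := exists_coords hcard hind (h' P)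
  have hhP : h (h P) = a • P := by
    have := congrArg (fun g : Module.End (ZMod p) V => g P) ha
    simpa [sq] using this
  have hh'P : h' (h' P) = a' • P := by
    have := congrArg (fun g : Module.End (ZMod p) V => g P) ha'
    simpa [sq] using this
  have hsw : h' (h P) = h (h' P) := by
    have := congrArg (fun g : Module.End (ZMod p) V => g P) hcomm
    simp only [Module.End.mul_apply] at this
    exact this.symm
  have h1 : h' (h P) = (β * a) • P + α • h P := by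
    rw [hsw, hαβ, map_add, map_smul, map_smul, hhP, smul_smul, add_comm]
  have h2 : a' • P = (α * α + β * (β * a)) • P + (2 * α * β) • h P := by
    rw [← hh'P]
    nth_rewrite 1 [hαβ]
    rw [map_add, map_smul, map_smul, h1, hαβ]
    simp only [smul_add, smul_smul, add_smul]
    have e : (2 * α * β) • h P = (α * β) • h P + (β * α) • h P := by
      rw [← add_smul]; congr 1; ring
    rw [e]; abel
  have h3 : (α * α + β * (β * a) - a') • P + (2 * α * β) • h P = 0 := by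
    rw [sub_smul, h2]; abel
  obtain ⟨-, e2⟩ := hind _ _ h3
  have h2ne : (2 : ZMod p) ≠ 0 := by
    intro h20
    have : ((2 : ℕ) : ZMod p) = 0 := by exact_mod_cast h20
    rw [ZMod.natCast_eq_zero_iff] at this
    exact hp2 ((Nat.prime_dvd_prime_iff_eq hp.out Nat.prime_two).1 this)
  rcases mul_eq_zero.1 e2 with e3 | e3
  · rcases mul_eq_zero.1 e3 with e4 | e4
    · exact absurd e4 h2ne
    · right
      exact ⟨β, by rw [hαβ, e4, zero_smul, zero_add]⟩
  · left
    exact ⟨α, by rw [hαβ, e3, zero_smul, add_zero]⟩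

section Orbit

variable {G : Type*} [Group G] (I : Subgroup G) (r : G →* Module.End (ZMod p) V)

/-- the orbit of `P` under `I`. -/
def orb (P : V) : Set V := {Q | ∃ s ∈ I, r s P = Q}

theorem self_mem_orb (P : V) : P ∈ orb I r P := ⟨1, I.one_mem, by rw [map_one]; rfl⟩

theorem apply_mem_orb {P Q : V} (hQ : Q ∈ orb I r P) {t : G} (ht : t ∈ I) : r t Q ∈ orb I r P := by
  obtain ⟨s, hs, rfl⟩ := hQ
  exact ⟨t * s, I.mul_mem ht hs, by rw [map_mul]; rfl⟩

theorem apply_inv_apply (s : G) (P : V) : r s⁻¹ (r s P) = P := by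
  have : r s⁻¹ * r s = 1 := by rw [← map_mul, inv_mul_cancel, map_one]
  have := congrArg (fun g : Module.End (ZMod p) V => g P) this
  simp only [Module.End.mul_apply, Module.End.one_apply] at this
  exact this

theorem injective_apply (s : G) : Function.Injective (r s) := by
  intro P Q h
  rw [← apply_inv_apply r s P, h, apply_inv_apply]

theorem mem_orb_symm {P Q : V} (hQ : Q ∈ orb I r P) : P ∈ orb I r Q := by
  obtain ⟨s, hs, rfl⟩ := hQ
  exact ⟨s⁻¹, I.inv_mem hs, apply_inv_apply r s P⟩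

theorem orb_subset {P Q : V} (hQ : Q ∈ orb I r P) : orb I r Q ⊆ orb I r P := by
  rintro R ⟨t, ht, rfl⟩
  exact apply_mem_orb I r hQ ht

theorem ne_zero_of_mem_orb {P Q : V} (hP : P ≠ 0) (hQ : Q ∈ orb I r P) : Q ≠ 0 := by
  obtain ⟨s, hs, rfl⟩ := hQ
  intro h0
  apply hP
  rw [← apply_inv_apply r s P, h0, map_zero]

variable [DecidableEq V]

/-- **an orbit on `V ∖ 0` lies on at most two lines.** -/
theorem orb_subset_lines (hp2 : p ≠ 2) (hcard : Nat.card V = p ^ 2)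
    (hcomm : ∀ s ∈ I, ∀ t ∈ I, r s * r t = r t * r s)
    (hsq : ∀ s ∈ I, ∃ a : ZMod p, r s ^ 2 = a • (1 : Module.End (ZMod p) V))
    {P : V} (hP : P ≠ 0) :
    ∃ Q : V, ∀ R ∈ orb I r P, R ∈ lineSet (p := p) P ∪ lineSet (p := p) Q := by
  by_cases hA : ∀ s ∈ I, ∃ α : ZMod p, r s P = α • P
  · refine ⟨P, ?_⟩
    rintro R ⟨s, hs, rfl⟩
    obtain ⟨α, hα⟩ := hA s hs
    refine Finset.mem_union_left _ (mem_lineSet.2 ⟨α, ?_, hα⟩)
    rintro rfl
    rw [zero_smul] at hα
    exact ne_zero_of_mem_orb I r hP ⟨s, hs, rfl⟩ hα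
  · push Not at hA
    obtain ⟨s₀, hs₀, hs₀P⟩ := hA
    have hind : ∀ α β : ZMod p, α • P + β • r s₀ P = 0 → α = 0 ∧ β = 0 := by
      intro α β h
      have hβ : β = 0 := by
        by_contra hβ
        apply hs₀P (-(β⁻¹ * α))
        have h1 : β • r s₀ P = -(α • P) := by
          rw [eq_neg_iff_add_eq_zero, add_comm]; exact h
        have h2 : r s₀ P = β⁻¹ • (β • r s₀ P) := by
          rw [smul_smul, inv_mul_cancel₀ hβ, one_smul]
        rw [h2, h1, smul_neg, smul_smul, neg_smul]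
      refine ⟨?_, hβ⟩
      rw [hβ, zero_smul, add_zero] at h
      rcases smul_eq_zero.1 h with h | h
      · exact h
      · exact absurd h hP
    refine ⟨r s₀ P, ?_⟩
    rintro R ⟨s, hs, rfl⟩
    obtain ⟨a, ha⟩ := hsq s₀ hs₀
    obtain ⟨a', ha'⟩ := hsq s hs
    have hR0 : r s P ≠ 0 := ne_zero_of_mem_orb I r hP ⟨s, hs, rfl⟩
    rcases line_or_line hp2 hcard (r s₀) (r s) (hcomm s₀ hs₀ s hs) ha ha' P hind with
      ⟨α, hα⟩ | ⟨β, hβ⟩
    · refine Finset.mem_union_left _ (mem_lineSet.2 ⟨α, ?_, hα⟩)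
      rintro rfl
      rw [zero_smul] at hα
      exact hR0 hα
    · refine Finset.mem_union_right _ (mem_lineSet.2 ⟨β, ?_, hβ⟩)
      rintro rfl
      rw [zero_smul] at hβ
      exact hR0 hβ

variable [Fintype V]

/-- the orbit as a finset. -/
noncomputable def orbF (P : V) : Finset V :=
  @Finset.filter V (fun Q => Q ∈ orb I r P) (Classical.decPred _) Finset.univ

theorem mem_orbF {P Q : V} : Q ∈ orbF I r P ↔ Q ∈ orb I r P := by
  unfold orbF
  exact (@Finset.mem_filter V (fun Q => Q ∈ orb I r P) (Classical.decPred _) Finset.univ Q).trans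
    ⟨fun h => h.2, fun h => ⟨Finset.mem_univ _, h⟩⟩

theorem card_orbF_le (hp2 : p ≠ 2) (hcard : Nat.card V = p ^ 2)
    (hcomm : ∀ s ∈ I, ∀ t ∈ I, r s * r t = r t * r s)
    (hsq : ∀ s ∈ I, ∃ a : ZMod p, r s ^ 2 = a • (1 : Module.End (ZMod p) V))
    {P : V} (hP : P ≠ 0) : (orbF I r P).card ≤ 2 * (p - 1) := by
  obtain ⟨Q, hQ⟩ := orb_subset_lines I r hp2 hcard hcomm hsq hP
  have hsub : orbF I r P ⊆ lineSet (p := p) P ∪ lineSet (p := p) Q :=
    fun R hR => hQ R ((mem_orbF I r).1 hR)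
  calc (orbF I r P).card ≤ (lineSet (p := p) P ∪ lineSet (p := p) Q).card :=
        Finset.card_le_card hsub
    _ ≤ (lineSet (p := p) P).card + (lineSet (p := p) Q).card := Finset.card_union_le _ _
    _ ≤ (p - 1) + (p - 1) := Nat.add_le_add (card_lineSet_le P) (card_lineSet_le Q)
    _ = 2 * (p - 1) := by ring

/-- **three pairwise disjoint nonempty stable subsets of `V ∖ 0`** (`p ≥ 5`). -/
theorem exists_three_stable (hp5 : 5 ≤ p) (hcard : Nat.card V = p ^ 2)
    (hcomm : ∀ s ∈ I, ∀ t ∈ I, r s * r t = r t * r s)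
    (hsq : ∀ s ∈ I, ∃ a : ZMod p, r s ^ 2 = a • (1 : Module.End (ZMod p) V)) :
    ∃ S₁ S₂ S₃ : Finset V,
      (0 : V) ∉ S₁ ∧ (0 : V) ∉ S₂ ∧ (0 : V) ∉ S₃ ∧ S₁.Nonempty ∧ S₂.Nonempty ∧ S₃.Nonempty ∧
      Disjoint S₁ S₂ ∧ Disjoint S₁ S₃ ∧ Disjoint S₂ S₃ ∧
      (∀ s ∈ I, ∀ v ∈ S₁, r s v ∈ S₁) ∧ (∀ s ∈ I, ∀ v ∈ S₂, r s v ∈ S₂) ∧
      (∀ s ∈ I, ∀ v ∈ S₃, r s v ∈ S₃) := by
  have hp2 : p ≠ 2 := by omega
  have hcardF : Fintype.card V = p ^ 2 := by rw [← Nat.card_eq_fintype_card, hcard]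
  set N : Finset V := Finset.univ.erase (0 : V) with hN
  have hNcard : N.card = p ^ 2 - 1 := by
    rw [hN, Finset.card_erase_of_mem (Finset.mem_univ _), Finset.card_univ, hcardF]
  have hbound : ∀ P : V, P ≠ 0 → (orbF I r P).card ≤ 2 * (p - 1) :=
    fun P hP => card_orbF_le I r hp2 hcard hcomm hsq hP
  have hpp : p ^ 2 - 1 = (p - 1) * (p + 1) := by
    obtain ⟨k, rfl⟩ : ∃ k, p = k + 1 := ⟨p - 1, by omega⟩
    simp only [Nat.add_sub_cancel]
    have : (k + 1) ^ 2 = k * (k + 1 + 1) + 1 := by ring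
    omega
  have hp1 : 4 ≤ p - 1 := by omega
  -- first point
  have h1 : ∃ P₁ : V, P₁ ∈ N := by
    apply Finset.card_pos.1
    rw [hNcard, hpp]
    positivity
  obtain ⟨P₁, hP₁N⟩ := h1
  have hP₁ : P₁ ≠ 0 := Finset.ne_of_mem_erase hP₁N
  -- second point
  have h2 : ∃ P₂ : V, P₂ ∈ N \ orbF I r P₁ := by
    apply Finset.card_pos.1
    have := Finset.le_card_sdiff (orbF I r P₁) N
    have hb := hbound P₁ hP₁
    rw [hNcard, hpp] at this
    have : 2 * (p - 1) < (p - 1) * (p + 1) := by nlinarith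
    omega
  obtain ⟨P₂, hP₂m⟩ := h2
  have hP₂N : P₂ ∈ N := (Finset.mem_sdiff.1 hP₂m).1
  have hP₂ : P₂ ≠ 0 := Finset.ne_of_mem_erase hP₂N
  have hP₂1 : P₂ ∉ orb I r P₁ := fun h => (Finset.mem_sdiff.1 hP₂m).2 ((mem_orbF I r).2 h)
  -- third point
  have h3 : ∃ P₃ : V, P₃ ∈ N \ (orbF I r P₁ ∪ orbF I r P₂) := by
    apply Finset.card_pos.1
    have := Finset.le_card_sdiff (orbF I r P₁ ∪ orbF I r P₂) N
    have hb1 := hbound P₁ hP₁
    have hb2 := hbound P₂ hP₂
    have hu := Finset.card_union_le (orbF I r P₁) (orbF I r P₂)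
    rw [hNcard, hpp] at this
    have : 2 * (p - 1) + 2 * (p - 1) < (p - 1) * (p + 1) := by nlinarith
    omega
  obtain ⟨P₃, hP₃m⟩ := h3
  have hP₃N : P₃ ∈ N := (Finset.mem_sdiff.1 hP₃m).1
  have hP₃ : P₃ ≠ 0 := Finset.ne_of_mem_erase hP₃N
  have hP₃1 : P₃ ∉ orb I r P₁ := fun h =>
    (Finset.mem_sdiff.1 hP₃m).2 (Finset.mem_union_left _ ((mem_orbF I r).2 h))
  have hP₃2 : P₃ ∉ orb I r P₂ := fun h =>
    (Finset.mem_sdiff.1 hP₃m).2 (Finset.mem_union_right _ ((mem_orbF I r).2 h))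
  -- disjointness
  have hdisj : ∀ P Q : V, Q ∉ orb I r P → Disjoint (orbF I r P) (orbF I r Q) := by
    intro P Q hQP
    rw [Finset.disjoint_left]
    intro R hRP hRQ
    rw [mem_orbF] at hRP hRQ
    exact hQP (orb_subset I r hRP (mem_orb_symm I r hRQ))
  have h0 : ∀ P : V, P ≠ 0 → (0 : V) ∉ orbF I r P := fun P hP h =>
    ne_zero_of_mem_orb I r hP ((mem_orbF I r).1 h) rfl
  have hne : ∀ P : V, (orbF I r P).Nonempty := fun P => ⟨P, (mem_orbF I r).2 (self_mem_orb I r P)⟩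
  have hst : ∀ P : V, ∀ s ∈ I, ∀ v ∈ orbF I r P, r s v ∈ orbF I r P := fun P s hs v hv =>
    (mem_orbF I r).2 (apply_mem_orb I r ((mem_orbF I r).1 hv) hs)
  exact ⟨orbF I r P₁, orbF I r P₂, orbF I r P₃, h0 P₁ hP₁, h0 P₂ hP₂, h0 P₃ hP₃, hne P₁, hne P₂,
    hne P₃, hdisj P₁ P₂ hP₂1, hdisj P₁ P₃ hP₃1, hdisj P₂ P₃ hP₃2, hst P₁, hst P₂, hst P₃⟩

end Orbit

end Fermat.Agent.GE8.Irr2.Serre.Orbits
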